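import Mathlib
import Fermat.Agent.Eis.L1ModMain

/-!
# Program C (S36), node (C-IG-SQ), file 1: `θ j = - E₄² E₆ / Δ` in `ℤ⟦q⟧`

With `Q = eisZ 240 3` (`= E₄`), `R = eisZ (-504) 5` (`= E₆`), `P = eisZ (-24) 1` (`= E₂`),
`E = dedekindEtaUnit = ∏ (1 - qⁿ)²⁴`, `D = deltaZ = q E` and `N = jNum = Q³ / E`
(so that the Prelude's `j = q⁻¹ N`), the integral Ramanujan identities (`Eis.L1.ramZ`) give

* `theta_deltaZ`      : `θ D = P D`;
* `theta_etaUnit`     : `θ E = (P - 1) E`;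
* `theta_jNum_mul`    : `(θ N - N) E = - Q² R`          (i.e. `θ j · Δ = - E₄² E₆`).

Here `θ f = X * f'`.  Mathlib + `Eis/*` only; imported by nothing outside `BR3/IgSq`.
-/

set_option autoImplicit false

noncomputable section

namespace Fermat.Agent.BR3.IgSq

open PowerSeries Fermat.Agent.Eis.QExp Fermat.Agent.Eis.L1

/-- `θ = X d/dX` on integral power series. -/
def thetaZ (f : PowerSeries ℤ) : PowerSeries ℤ := X * derivative ℤ f

theorem thetaZ_mul (f g : PowerSeries ℤ) : thetaZ (f * g) = thetaZ f * g + f * thetaZ g := by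
  unfold thetaZ
  rw [Derivation.leibniz]
  simp only [smul_eq_mul]
  ring

theorem thetaZ_sub (f g : PowerSeries ℤ) : thetaZ (f - g) = thetaZ f - thetaZ g := by
  unfold thetaZ
  rw [map_sub]
  ring

theorem thetaZ_pow_three (f : PowerSeries ℤ) : thetaZ (f ^ 3) = 3 * f ^ 2 * thetaZ f := by
  rw [pow_succ, pow_succ, pow_one, thetaZ_mul, thetaZ_mul]
  ring

theorem thetaZ_pow_two (f : PowerSeries ℤ) : thetaZ (f ^ 2) = 2 * f * thetaZ f := by
  rw [pow_succ, pow_one, thetaZ_mul]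
  ring

theorem thetaZ_ofNat_mul (n : ℕ) [n.AtLeastTwo] (f : PowerSeries ℤ) :
    thetaZ ((OfNat.ofNat n : PowerSeries ℤ) * f) = (OfNat.ofNat n : PowerSeries ℤ) * thetaZ f := by
  have h : (OfNat.ofNat n : PowerSeries ℤ) = C (OfNat.ofNat n : ℤ) := (map_ofNat _ _).symm
  unfold thetaZ
  rw [h, ← smul_eq_C_mul, Derivation.map_smul, smul_eq_C_mul]
  ring

theorem thetaZ_X : thetaZ X = X := by
  unfold thetaZ
  rw [derivative_X, mul_one]

/-- Cancellation of a nonzero integer constant in `ℤ⟦X⟧`. -/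
theorem eq_of_ofNat_mul_eq {f g : PowerSeries ℤ} (h : (1728 : PowerSeries ℤ) * f = 1728 * g) :
    f = g := by
  ext n
  have h1 := congrArg (coeff n) h
  have hc : (1728 : PowerSeries ℤ) = C (1728 : ℤ) := (map_ofNat _ _).symm
  rw [hc, coeff_C_mul, coeff_C_mul] at h1
  exact mul_left_cancel₀ (by norm_num) h1

/-- `θ Δ = E₂ Δ` in `ℤ⟦q⟧`. -/
theorem theta_deltaZ : thetaZ deltaZ = eisZ (-24) 1 * deltaZ := by
  obtain ⟨-, h4, h6⟩ := ramZ
  change 3 * thetaZ (eisZ 240 3) = _ at h4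
  change 2 * thetaZ (eisZ (-504) 5) = _ at h6
  apply eq_of_ofNat_mul_eq
  rw [← thetaZ_ofNat_mul, ← eisZ_cube_sub_sq, thetaZ_sub, thetaZ_pow_three, thetaZ_pow_two,
    mul_left_comm, ← eisZ_cube_sub_sq]
  linear_combination (eisZ 240 3) ^ 2 * h4 - (eisZ (-504) 5) * h6

/-- `θ E = (E₂ - 1) E` for `E = ∏ (1 - qⁿ)²⁴`. -/
theorem theta_etaUnit :
    thetaZ ModularCurve.dedekindEtaUnit = (eisZ (-24) 1 - 1) * ModularCurve.dedekindEtaUnit := by
  have h := theta_deltaZ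
  rw [deltaZ, thetaZ_mul, thetaZ_X] at h
  have h2 : X * thetaZ ModularCurve.dedekindEtaUnit =
      X * ((eisZ (-24) 1 - 1) * ModularCurve.dedekindEtaUnit) := by
    linear_combination h
  exact mul_left_cancel₀ X_ne_zero h2

theorem jNum_mul_etaUnit :
    ModularCurve.jNum * ModularCurve.dedekindEtaUnit = eisZ 240 3 ^ 3 := by
  rw [ModularCurve.jNum, eisZ_240_3, mul_assoc, mul_comm ModularCurve.dedekindEtaUnitInv,
    ModularCurve.dedekindEtaUnit_mul_inv, mul_one]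

/-- **`θ j · Δ = - E₄² E₆`**, in the form `(θ N - N) E = - Q² R` for `j = q⁻¹ N`, `Δ = q E`. -/
theorem theta_jNum_mul :
    (thetaZ ModularCurve.jNum - ModularCurve.jNum) * ModularCurve.dedekindEtaUnit =
      -(eisZ 240 3 ^ 2 * eisZ (-504) 5) := by
  obtain ⟨-, h4, -⟩ := ramZ
  change 3 * thetaZ (eisZ 240 3) = _ at h4
  have h1 := congrArg thetaZ jNum_mul_etaUnit
  rw [thetaZ_mul, thetaZ_pow_three, theta_etaUnit] at h1
  have h2 := jNum_mul_etaUnit
  linear_combination h1 + (eisZ 240 3) ^ 2 * h4 - (eisZ (-24) 1 - 1) * h2 - h2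

end Fermat.Agent.BR3.IgSq
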