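import Mathlib
import Fermat.Prelude.Def_ModularCurve_JqCoeff
import Fermat.Agent.BR3.IgSq.ThetaJ

/-!
# Program C (S36), node (C-IG-SQ), file 3: `θ j̃ · Δ̃ = - Ẽ₄² Ẽ₆` for Laurent series over any ring

`thetaL` is `θ = q d/dq` on Laurent series (the coefficient of `qᵐ` is multiplied by `m`);
`psL k` embeds integral power series into `k((q))`.  For the Prelude's `jqModC k`:

* `jqModC_mul_deltaL`        : `j̃ · Δ̃ = Ẽ₄³`;
* `jqModC_sub_mul_deltaL`    : `(j̃ - 1728) · Δ̃ = Ẽ₆²`;
* `thetaL_jqModC_mul_deltaL` : `θ j̃ · Δ̃ = - Ẽ₄² Ẽ₆`.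
-/

set_option autoImplicit false

noncomputable section

namespace Fermat.Agent.BR3.IgSq

open HahnSeries ModularCurve Fermat.Agent.Eis.QExp

variable (k : Type*) [CommRing k]

/-- `θ = q d/dq` on Laurent series, coefficientwise. -/
def thetaL (f : LaurentSeries k) : LaurentSeries k where
  coeff m := (m : k) * f.coeff m
  isPWO_support' := f.isPWO_support.mono (fun m hm => by
    simp only [Function.mem_support, ne_eq] at hm ⊢
    intro h
    exact hm (by rw [h, mul_zero]))

variable {k} in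
@[simp] theorem coeff_thetaL (f : LaurentSeries k) (m : ℤ) :
    (thetaL k f).coeff m = (m : k) * f.coeff m := rfl

/-- Integral power series as Laurent series over `k`. -/
def psL : PowerSeries ℤ →+* LaurentSeries k :=
  (HahnSeries.ofPowerSeries ℤ k).comp (PowerSeries.map (Int.castRingHom k))

theorem psL_apply (f : PowerSeries ℤ) :
    psL k f = HahnSeries.ofPowerSeries ℤ k (f.map (Int.castRingHom k)) := rfl

theorem coeff_psL_natCast (f : PowerSeries ℤ) (n : ℕ) :
    (psL k f).coeff (n : ℤ) = ((PowerSeries.coeff n f : ℤ) : k) := by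
  rw [psL_apply, HahnSeries.ofPowerSeries_apply_coeff, PowerSeries.coeff_map]
  rfl

theorem coeff_psL_of_neg (f : PowerSeries ℤ) {m : ℤ} (hm : m < 0) : (psL k f).coeff m = 0 := by
  rw [psL_apply]
  exact ModularCurve.ofPowerSeries_coeff_of_neg _ hm

theorem psL_X : psL k PowerSeries.X = HahnSeries.single (1 : ℤ) 1 := by
  rw [psL_apply, PowerSeries.map_X, HahnSeries.ofPowerSeries_X]

theorem jqModC_eq : jqModC k = HahnSeries.single (-1 : ℤ) 1 * psL k jNum := rfl

theorem coeff_thetaZ (f : PowerSeries ℤ) (n : ℕ) :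
    PowerSeries.coeff n (thetaZ f) = (n : ℤ) * PowerSeries.coeff n f := by
  unfold thetaZ
  rcases n with _ | n
  · simp
  · rw [PowerSeries.coeff_succ_X_mul, PowerSeries.coeff_derivative, mul_comm]
    push_cast
    ring

/-- `θ (q⁻¹ N) = q⁻¹ (θ N - N)`. -/
theorem thetaL_jqModC :
    thetaL k (jqModC k) = HahnSeries.single (-1 : ℤ) 1 * psL k (thetaZ jNum - jNum) := by
  ext m
  rw [coeff_thetaL, jqModC_eq, HahnSeries.coeff_single_mul, HahnSeries.coeff_single_mul, one_mul,
    one_mul]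
  rcases lt_or_ge (m - (-1)) 0 with h | h
  · rw [coeff_psL_of_neg k _ h, coeff_psL_of_neg k _ h, mul_zero]
  · obtain ⟨n, hn⟩ := Int.eq_ofNat_of_zero_le h
    rw [hn, coeff_psL_natCast, coeff_psL_natCast, map_sub, coeff_thetaZ]
    have hm : m = (n : ℤ) - 1 := by omega
    rw [hm]
    push_cast
    ring

/-- The Laurent series of `Δ`. -/
def deltaL : LaurentSeries k := psL k deltaZ

theorem deltaL_eq : deltaL k = HahnSeries.single (1 : ℤ) 1 * psL k dedekindEtaUnit := by
  rw [deltaL, deltaZ, map_mul, psL_X]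

theorem single_neg_one_mul_single_one :
    (HahnSeries.single (-1 : ℤ) (1 : k)) * HahnSeries.single (1 : ℤ) 1 = 1 := by
  rw [HahnSeries.single_mul_single, mul_one]
  rfl

/-- `j̃ Δ̃ = Ẽ₄³`. -/
theorem jqModC_mul_deltaL : jqModC k * deltaL k = psL k (eisZ 240 3) ^ 3 := by
  rw [jqModC_eq, deltaL_eq, ← map_pow, ← jNum_mul_etaUnit, map_mul]
  linear_combination (psL k jNum * psL k dedekindEtaUnit) * single_neg_one_mul_single_one k

/-- `θ j̃ · Δ̃ = - Ẽ₄² Ẽ₆`. -/
theorem thetaL_jqModC_mul_deltaL :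
    thetaL k (jqModC k) * deltaL k = -(psL k (eisZ 240 3) ^ 2 * psL k (eisZ (-504) 5)) := by
  have h := congrArg (psL k) theta_jNum_mul
  rw [map_mul, map_neg, map_mul, map_pow] at h
  rw [thetaL_jqModC, deltaL_eq, ← h]
  linear_combination (psL k (thetaZ jNum - jNum) * psL k dedekindEtaUnit) *
    single_neg_one_mul_single_one k

/-- `(j̃ - 1728) Δ̃ = Ẽ₆²`. -/
theorem jqModC_sub_mul_deltaL :
    (jqModC k - 1728) * deltaL k = psL k (eisZ (-504) 5) ^ 2 := by
  have h := congrArg (psL k) eisZ_cube_sub_sq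
  rw [map_sub, map_pow, map_pow, map_mul, map_ofNat] at h
  rw [sub_mul, jqModC_mul_deltaL, deltaL]
  linear_combination h

theorem constantCoeff_psL (f : PowerSeries ℤ) (hf : PowerSeries.constantCoeff f = 1) :
    (psL k f).coeff 0 = 1 := by
  have := coeff_psL_natCast k f 0
  rw [Nat.cast_zero] at this
  rw [this, PowerSeries.coeff_zero_eq_constantCoeff_apply, hf, Int.cast_one]

variable {k} in
theorem psL_ne_zero [Nontrivial k] (f : PowerSeries ℤ) (hf : PowerSeries.constantCoeff f = 1) :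
    psL k f ≠ 0 := by
  intro h
  have h1 := constantCoeff_psL k f hf
  rw [h, HahnSeries.coeff_zero] at h1
  exact zero_ne_one h1

variable {k} in
theorem deltaL_ne_zero [Nontrivial k] : deltaL k ≠ 0 := by
  intro h
  have h1 : (deltaL k).coeff ((1 : ℕ) : ℤ) = 1 := by
    rw [deltaL, coeff_psL_natCast, coeff_one_deltaZ, Int.cast_one]
  rw [h, HahnSeries.coeff_zero] at h1
  exact zero_ne_one h1

end Fermat.Agent.BR3.IgSq
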