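import Mathlib

/-!
# Program C (S36), node (C-IG-SQ), file 2: the subring `ℤ_(l) ⊆ ℂ` with its reduction to `ZMod l`

`zlocC l : Subring ℂ` is the image of `Localization.AtPrime (l)`; every integer prime to `l` is
invertible in it (`inv_natCast_mem_zlocC`, the hypothesis `hS` of the level-one theorems of
`Eis/*`), and `zlocRed l : zlocC l →+* ZMod l` kills `l` (`zlocRed_prime`).  Mathlib only.
-/

set_option autoImplicit false

noncomputable section

namespace Fermat.Agent.BR3.IgSq

variable (l : ℕ) [hl : Fact l.Prime]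

/-- The prime ideal `(l)` of `ℤ`. -/
def primeIdeal : Ideal ℤ := Ideal.span {(l : ℤ)}

instance primeIdeal_isPrime : (primeIdeal l).IsPrime :=
  (Ideal.span_singleton_prime (by exact_mod_cast hl.out.ne_zero)).mpr
    (Nat.prime_iff_prime_int.mp hl.out)

theorem mem_primeCompl_iff (y : ℤ) : y ∈ (primeIdeal l).primeCompl ↔ ¬ (l : ℤ) ∣ y := by
  rw [Ideal.mem_primeCompl_iff, primeIdeal, Ideal.mem_span_singleton]

/-- `ℤ_(l)`. -/
abbrev ZLoc : Type := Localization.AtPrime (primeIdeal l)

/-- `ℤ_(l) → ℂ`. -/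
def zlocToC : ZLoc l →+* ℂ :=
  IsLocalization.lift (M := (primeIdeal l).primeCompl) (g := Int.castRingHom ℂ) (fun y => by
    have hy : (y : ℤ) ≠ 0 := by
      intro h0
      exact (mem_primeCompl_iff l y).mp y.2 (h0 ▸ dvd_zero _)
    exact IsUnit.mk0 _ (by simpa using hy))

/-- `ℤ_(l) → 𝔽_l`. -/
def zlocToF : ZLoc l →+* ZMod l :=
  IsLocalization.lift (M := (primeIdeal l).primeCompl) (g := Int.castRingHom (ZMod l))
    (fun y => by
      have hy : ((y : ℤ) : ZMod l) ≠ 0 := by
        intro h0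
        exact (mem_primeCompl_iff l y).mp y.2 ((ZMod.intCast_zmod_eq_zero_iff_dvd _ l).mp h0)
      exact IsUnit.mk0 _ (by simpa using hy))

theorem zlocToC_injective : Function.Injective (zlocToC l) := by
  unfold zlocToC
  rw [IsLocalization.lift_injective_iff]
  intro x y
  constructor
  · intro h
    have h' : x = y := IsLocalization.injective (ZLoc l)
      (primeIdeal l).primeCompl_le_nonZeroDivisors h
    rw [h']
  · intro h
    have : x = y := by simpa using h
    rw [this]

/-- `ℤ_(l)` as a subring of `ℂ`. -/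
def zlocC : Subring ℂ := (zlocToC l).range

/-- `ℤ_(l) ≃ zlocC l`. -/
def zlocEquiv : ZLoc l ≃+* zlocC l :=
  RingEquiv.ofBijective (zlocToC l).rangeRestrict
    ⟨fun _ _ h => zlocToC_injective l (congrArg Subtype.val h),
      (zlocToC l).rangeRestrict_surjective⟩

/-- The reduction `ℤ_(l) → 𝔽_l` on the subring of `ℂ`. -/
def zlocRed : zlocC l →+* ZMod l := (zlocToF l).comp ((zlocEquiv l).symm : zlocC l →+* ZLoc l)

theorem zlocRed_prime : zlocRed l ((l : ℕ) : zlocC l) = 0 := by
  rw [map_natCast]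
  exact ZMod.natCast_self l

theorem inv_natCast_mem_zlocC (N : ℕ) (hN : ¬ l ∣ N) : ((N : ℂ))⁻¹ ∈ zlocC l := by
  have hmem : (N : ℤ) ∈ (primeIdeal l).primeCompl := by
    rw [mem_primeCompl_iff]
    exact fun h => hN (Int.natCast_dvd_natCast.mp h)
  let s : (primeIdeal l).primeCompl := ⟨(N : ℤ), hmem⟩
  let x : ZLoc l := IsLocalization.mk' (ZLoc l) (1 : ℤ) s
  have h1 : x * algebraMap ℤ (ZLoc l) (N : ℤ) = algebraMap ℤ (ZLoc l) 1 :=
    IsLocalization.mk'_spec (ZLoc l) (1 : ℤ) s
  have h2 : zlocToC l x * (N : ℂ) = 1 := by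
    have := congrArg (zlocToC l) h1
    rw [map_mul] at this
    unfold zlocToC at this ⊢
    rw [IsLocalization.lift_eq, IsLocalization.lift_eq] at this
    simpa using this
  have hN0 : (N : ℂ) ≠ 0 := by
    intro h0
    rw [h0, mul_zero] at h2
    exact zero_ne_one h2
  exact ⟨x, eq_inv_of_mul_eq_one_left h2⟩

end Fermat.Agent.BR3.IgSq
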