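import Mathlib
import Fermat.Agent.BR3.IgSq.Laurent
import Fermat.Agent.BR3.IgSq.ZLoc

/-!
# Program C (S36), node (C-IG-SQ): `(θ j̃)^((q-1)/2)` is a rational function of `j̃` in char. `q`

Let `q ≥ 5` be a prime, `k` a field of characteristic `q`, `j̃ = jqModC k ∈ k((s))` the `q`-expansion
of `j` and `θ = s d/ds` (`thetaL`).  The Hasse invariant `E_{q-1}` is an isobaric polynomial `A` in
`E₄, E₆` with `A(Ẽ₄, Ẽ₆) = 1` (`Eis.L1Int.exists_isobaric2_E_pred`, von Staudt–Clausen), and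
`θ j̃ = - Ẽ₄² Ẽ₆ / Δ̃` (Ramanujan).  Hence, with `n = (q-1)/2`,

  `(θ j̃)ⁿ · T(j̃) = (-1)ⁿ (j̃ (j̃ - 1728))ⁿ`,   `T = Σ_{(a,b)} c_{ab} Xᵃ⁺ᵇ (X - 1728)ᵃ⁺²ᵇ ∈ k[X]`, `T(j̃) ≠ 0`

(`exists_poly_thetaL_pow`).  This is the statement "`γ = -(θ j̃)^(q-1)` is a square in the residue
field of `C_et`", i.e. there are TWO middle components in the stable model of `X₀(q² M')`.
For `q = 3` (and `q = 2`): `θ j̃ = - j̃` (`thetaL_jqModC_of_char_three`, `…_two`).
-/

set_option autoImplicit false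

noncomputable section

namespace Fermat.Agent.BR3.IgSq

open HahnSeries ModularCurve Fermat.Agent.Eis.QExp Fermat.Agent.Eis.L1Int

section Abstract

variable {k : Type*} [Field k]

/-- The polynomial `T = Σ_d c_d X^(d₀+d₁) (X - 1728)^(d₀+2d₁)` attached to `A = Σ_d c_d X₀^d₀ X₁^d₁`. -/
def polyT (A : MvPolynomial (Fin 2) k) : Polynomial k :=
  ∑ d ∈ A.support, Polynomial.C (A.coeff d) * Polynomial.X ^ (d 0 + d 1) *
    (Polynomial.X - Polynomial.C 1728) ^ (d 0 + 2 * d 1)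

/-- `A(Q, R)` as a sum over the support. -/
theorem aeval_two (A : MvPolynomial (Fin 2) k) (Q R : PowerSeries k) :
    MvPolynomial.aeval ![Q, R] A =
      ∑ d ∈ A.support, PowerSeries.C (A.coeff d) * (Q ^ d 0 * R ^ d 1) := by
  rw [MvPolynomial.aeval_def, MvPolynomial.eval₂_eq']
  refine Finset.sum_congr rfl fun d _ => ?_
  rw [Fin.prod_univ_two]
  rfl

/-- **Key computation.** If `A` is isobaric of weight `2 n` (weights `4, 6`) then
`T(j̃) · Δ̃ⁿ = Ẽ₄ⁿ Ẽ₆ⁿ · A(Ẽ₄, Ẽ₆)`. -/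
theorem aeval_polyT_mul (n : ℕ) (A : MvPolynomial (Fin 2) k)
    (hA : A.IsWeightedHomogeneous wt2 (2 * n)) :
    Polynomial.aeval (jqModC k) (polyT A) * deltaL k ^ n =
      psL k (eisZ 240 3) ^ n * psL k (eisZ (-504) 5) ^ n *
        HahnSeries.ofPowerSeries ℤ k (MvPolynomial.aeval
          ![(eisZ 240 3).map (Int.castRingHom k), (eisZ (-504) 5).map (Int.castRingHom k)] A) := by
  rw [aeval_two, map_sum, polyT, map_sum, Finset.sum_mul, Finset.mul_sum]
  refine Finset.sum_congr rfl fun d hd => ?_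
  have hw : 2 * d 0 + 3 * d 1 = n := by
    have h1 := hA (MvPolynomial.mem_support_iff.mp hd)
    rw [weight_wt2] at h1
    omega
  have hn : n = (d 0 + d 1) + (d 0 + 2 * d 1) := by omega
  have hJ := jqModC_mul_deltaL k
  have hJ' := jqModC_sub_mul_deltaL k
  have hRHS : (HahnSeries.ofPowerSeries ℤ k) (PowerSeries.C (A.coeff d) *
      (((eisZ 240 3).map (Int.castRingHom k)) ^ d 0 *
        ((eisZ (-504) 5).map (Int.castRingHom k)) ^ d 1)) =
      algebraMap k (LaurentSeries k) (A.coeff d) *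
        (psL k (eisZ 240 3) ^ d 0 * psL k (eisZ (-504) 5) ^ d 1) := by
    have hc : algebraMap k (LaurentSeries k) (A.coeff d) =
        HahnSeries.ofPowerSeries ℤ k (PowerSeries.C (A.coeff d)) := by
      have h1 : algebraMap k (PowerSeries k) (A.coeff d) = PowerSeries.C (A.coeff d) := by simp
      rw [HahnSeries.algebraMap_apply', h1]
    rw [map_mul, map_mul, map_pow, map_pow, ← hc]
    rfl
  rw [hRHS]
  have h1728 : (algebraMap k (LaurentSeries k)) 1728 = 1728 := map_ofNat _ _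
  simp only [map_mul, map_pow, map_sub, Polynomial.aeval_C, Polynomial.aeval_X, h1728]
  set Q := psL k (eisZ 240 3)
  set R := psL k (eisZ (-504) 5)
  set D := deltaL k
  set J := jqModC k
  set c := algebraMap k (LaurentSeries k) (A.coeff d)
  calc c * J ^ (d 0 + d 1) * (J - 1728) ^ (d 0 + 2 * d 1) * D ^ n
      = c * (J * D) ^ (d 0 + d 1) * ((J - 1728) * D) ^ (d 0 + 2 * d 1) := by
        rw [hn, _root_.pow_add D, mul_pow, mul_pow]
        ring
    _ = c * (Q ^ 3) ^ (d 0 + d 1) * (R ^ 2) ^ (d 0 + 2 * d 1) := by rw [hJ, hJ']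
    _ = Q ^ n * R ^ n * (c * (Q ^ d 0 * R ^ d 1)) := by
        rw [← pow_mul, ← pow_mul]
        have e1 : 3 * (d 0 + d 1) = n + d 0 := by omega
        have e2 : 2 * (d 0 + 2 * d 1) = n + d 1 := by omega
        rw [e1, e2, _root_.pow_add, _root_.pow_add]
        ring

/-- **The identity**, from an isobaric `A` of weight `2 n` with `A(Ẽ₄, Ẽ₆) = 1`. -/
theorem thetaL_pow_mul_of_isobaric (n : ℕ) (A : MvPolynomial (Fin 2) k)
    (hA : A.IsWeightedHomogeneous wt2 (2 * n))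
    (hA1 : MvPolynomial.aeval
      ![(eisZ 240 3).map (Int.castRingHom k), (eisZ (-504) 5).map (Int.castRingHom k)] A = 1) :
    thetaL k (jqModC k) ^ n * Polynomial.aeval (jqModC k) (polyT A) =
      (-1) ^ n * (jqModC k * (jqModC k - 1728)) ^ n := by
  have h1 := aeval_polyT_mul n A hA
  rw [hA1, map_one, mul_one] at h1
  have h2 := thetaL_jqModC_mul_deltaL k
  have hJ := jqModC_mul_deltaL k
  have hJ' := jqModC_sub_mul_deltaL k
  have hD : deltaL k ^ n * deltaL k ^ n ≠ 0 :=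
    mul_ne_zero (pow_ne_zero _ deltaL_ne_zero) (pow_ne_zero _ deltaL_ne_zero)
  apply mul_right_cancel₀ hD
  set Q := psL k (eisZ 240 3)
  set R := psL k (eisZ (-504) 5)
  set D := deltaL k
  set J := jqModC k
  set Θ := thetaL k J
  set T := Polynomial.aeval J (polyT A)
  calc Θ ^ n * T * (D ^ n * D ^ n) = (Θ * D) ^ n * (T * D ^ n) := by rw [mul_pow]; ring
    _ = (-(Q ^ 2 * R)) ^ n * (Q ^ n * R ^ n) := by rw [h2, h1]
    _ = (-1) ^ n * ((Q ^ 3) ^ n * (R ^ 2) ^ n) := by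
        rw [neg_pow, mul_pow, ← pow_mul, ← pow_mul, ← pow_mul]
        ring
    _ = (-1) ^ n * ((J * D) ^ n * ((J - 1728) * D) ^ n) := by rw [hJ, hJ']
    _ = (-1) ^ n * (J * (J - 1728)) ^ n * (D ^ n * D ^ n) := by
        rw [mul_pow, mul_pow, mul_pow]
        ring

theorem jqModC_ne_zero : jqModC k ≠ 0 := by
  intro h
  have h1 := jqModC_mul_deltaL k
  rw [h, zero_mul] at h1
  exact pow_ne_zero 3 (psL_ne_zero (eisZ 240 3) (constantCoeff_eisZ _ _)) h1.symm

theorem jqModC_sub_ne_zero : jqModC k - 1728 ≠ 0 := by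
  intro h
  have h1 := jqModC_sub_mul_deltaL k
  rw [h, zero_mul] at h1
  exact pow_ne_zero 2 (psL_ne_zero (eisZ (-504) 5) (constantCoeff_eisZ _ _)) h1.symm

end Abstract

/-- **(C-IG-SQ).** For a prime `q ≥ 5` and a field `k` of characteristic `q` there is a nonzero
polynomial `T ∈ k[X]` with `(θ j̃)ⁿ · T(j̃) = (-1)ⁿ (j̃ (j̃ - 1728))ⁿ`, `n = (q-1)/2`; in particular
`T(j̃) ≠ 0` and `(θ j̃)ⁿ ∈ k(j̃)`. -/
theorem exists_poly_thetaL_pow (q : ℕ) [hq : Fact q.Prime] (hq5 : 5 ≤ q)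
    (k : Type*) [Field k] [CharP k q] :
    ∃ T : Polynomial k, Polynomial.aeval (jqModC k) T ≠ 0 ∧
      thetaL k (jqModC k) ^ ((q - 1) / 2) * Polynomial.aeval (jqModC k) T =
        (-1) ^ ((q - 1) / 2) * (jqModC k * (jqModC k - 1728)) ^ ((q - 1) / 2) := by
  have h1728 : (1728 : k) ≠ 0 := by
    have h : ((1728 : ℕ) : k) ≠ 0 := by
      rw [Ne, CharP.cast_eq_zero_iff k q]
      intro hdvd
      have h1 : (1728 : ℕ) = 2 ^ 6 * 3 ^ 3 := by norm_num
      rw [h1] at hdvd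
      rcases (Nat.Prime.dvd_mul hq.out).mp hdvd with h2 | h3
      · have := (Nat.prime_dvd_prime_iff_eq hq.out Nat.prime_two).mp (hq.out.dvd_of_dvd_pow h2)
        omega
      · have := (Nat.prime_dvd_prime_iff_eq hq.out Nat.prime_three).mp (hq.out.dvd_of_dvd_pow h3)
        omega
    exact_mod_cast h
  have hu : (1728 : k)⁻¹ * 1728 = 1 := inv_mul_cancel₀ h1728
  let φ : zlocC q →+* k := (ZMod.castHom (dvd_refl q) k).comp (zlocRed q)
  have hφ : φ ((q : ℕ) : zlocC q) = 0 := by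
    show (ZMod.castHom (dvd_refl q) k) (zlocRed q ((q : ℕ) : zlocC q)) = 0
    rw [zlocRed_prime, map_zero]
  obtain ⟨A, hA, hA1⟩ := exists_isobaric2_E_pred qExp_E4.symm qExp_E6.symm qExp_Delta.symm
    eisZ_cube_sub_sq q hq5 (zlocC q) (inv_natCast_mem_zlocC q) φ hφ hu
  have hodd : Odd q := hq.out.odd_of_ne_two (by omega)
  have hn : q - 1 = 2 * ((q - 1) / 2) := by
    obtain ⟨j, hj⟩ := hodd
    omega
  rw [hn] at hA
  have hmain := thetaL_pow_mul_of_isobaric ((q - 1) / 2) A hA hA1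
  refine ⟨polyT A, ?_, hmain⟩
  intro h0
  rw [h0, mul_zero] at hmain
  have hne : (-1 : LaurentSeries k) ^ ((q - 1) / 2) *
      (jqModC k * (jqModC k - 1728)) ^ ((q - 1) / 2) ≠ 0 :=
    mul_ne_zero (pow_ne_zero _ (neg_ne_zero.mpr one_ne_zero))
      (pow_ne_zero _ (mul_ne_zero jqModC_ne_zero jqModC_sub_ne_zero))
  exact hne hmain.symm

/-- Division form of `exists_poly_thetaL_pow`: `(θ j̃)ⁿ = (-1)ⁿ (j̃ (j̃ - 1728))ⁿ / T(j̃)`. -/
theorem exists_poly_thetaL_pow_eq_div (q : ℕ) [hq : Fact q.Prime] (hq5 : 5 ≤ q)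
    (k : Type*) [Field k] [CharP k q] :
    ∃ T : Polynomial k, Polynomial.aeval (jqModC k) T ≠ 0 ∧
      thetaL k (jqModC k) ^ ((q - 1) / 2) =
        (-1) ^ ((q - 1) / 2) * (jqModC k * (jqModC k - 1728)) ^ ((q - 1) / 2) /
          Polynomial.aeval (jqModC k) T := by
  obtain ⟨T, hT, h⟩ := exists_poly_thetaL_pow q hq5 k
  exact ⟨T, hT, eq_div_of_mul_eq hT h⟩

/-! ### The small primes `q = 2, 3`: `Ẽ₄ = Ẽ₆ = 1`, hence `θ j̃ = - j̃` -/

section Small

variable {k : Type*} [Field k]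

theorem psL_eisZ_of_cast_eq_zero (c : ℤ) (j : ℕ) (hc : (c : k) = 0) : psL k (eisZ c j) = 1 := by
  ext m
  rcases lt_or_ge m 0 with h | h
  · rw [coeff_psL_of_neg k _ h, HahnSeries.coeff_one, if_neg (ne_of_lt h)]
  · obtain ⟨n, rfl⟩ := Int.eq_ofNat_of_zero_le h
    rw [coeff_psL_natCast, coeff_eisZ, HahnSeries.coeff_one]
    by_cases hn : n = 0
    · subst hn
      simp
    · rw [if_neg hn, if_neg (by exact_mod_cast hn), Int.cast_mul, hc, zero_mul]

/-- If `240 = 504 = 0` in `k` (characteristic `2` or `3`) then `θ j̃ = - j̃`. -/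
theorem thetaL_jqModC_of_eq_zero (h240 : ((240 : ℤ) : k) = 0) (h504 : ((-504 : ℤ) : k) = 0) :
    thetaL k (jqModC k) = -jqModC k := by
  have h2 := thetaL_jqModC_mul_deltaL k
  have hJ := jqModC_mul_deltaL k
  rw [psL_eisZ_of_cast_eq_zero 240 3 h240, psL_eisZ_of_cast_eq_zero (-504) 5 h504] at h2
  rw [psL_eisZ_of_cast_eq_zero 240 3 h240] at hJ
  apply mul_right_cancel₀ (deltaL_ne_zero (k := k))
  rw [h2, neg_mul, hJ]
  ring

theorem thetaL_jqModC_of_char_three [CharP k 3] : thetaL k (jqModC k) = -jqModC k := by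
  apply thetaL_jqModC_of_eq_zero
  · have : ((240 : ℕ) : k) = 0 := (CharP.cast_eq_zero_iff k 3 240).mpr (by norm_num)
    exact_mod_cast this
  · have : ((504 : ℕ) : k) = 0 := (CharP.cast_eq_zero_iff k 3 504).mpr (by norm_num)
    have h2 : ((-504 : ℤ) : k) = -((504 : ℕ) : k) := by push_cast; ring
    rw [h2, this, neg_zero]

theorem thetaL_jqModC_of_char_two [CharP k 2] : thetaL k (jqModC k) = -jqModC k := by
  apply thetaL_jqModC_of_eq_zero
  · have : ((240 : ℕ) : k) = 0 := (CharP.cast_eq_zero_iff k 2 240).mpr (by norm_num)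
    exact_mod_cast this
  · have : ((504 : ℕ) : k) = 0 := (CharP.cast_eq_zero_iff k 2 504).mpr (by norm_num)
    have h2 : ((-504 : ℤ) : k) = -((504 : ℕ) : k) := by push_cast; ring
    rw [h2, this, neg_zero]

end Small

end Fermat.Agent.BR3.IgSq
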