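import Mathlib
import Fermat.Agent.BR3.IgSq.Main

/-!
# Program C (S36), node (I6 SMALL-q): the uniform form of (C-IG-SQ) for ALL primes `q`

For a prime `q` put `midCard q` := the number of middle components of the stable model of
`X₀(q² M')` at `q` (`1` for `q = 2`, `2` for `q` odd) and `midDeg q` := their residue degree over
'can' (`1` for `q = 2, 3`, `(q-1)/2` for `q ≥ 5`), so that `midDeg q * midCard q + 1 = q`
(`midDeg_mul_midCard`; the shape `hd : d * card Mid + 1 = q` of `BR3/GraphKillGen`).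

* `exists_poly_thetaL_pow_midDeg` : for every prime `q` and every field `k` of characteristic `q`,
  `(θ j̃)^(midDeg q) · T(j̃) = N(j̃)` with `T, N ∈ k[X]`, `T(j̃) ≠ 0`, `N(j̃) ≠ 0`: the `midDeg q`-th
  power of `θ j̃` lies in `k(j̃)` (`q ≥ 5`: `exists_poly_thetaL_pow`; `q = 2, 3`: `θ j̃ = - j̃`).
-/

set_option autoImplicit false

noncomputable section

namespace Fermat.Agent.BR3.IgSq

open HahnSeries ModularCurve Fermat.Agent.Eis.QExp Fermat.Agent.Eis.L1Int

/-- the number of middle components at `q` -/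
def midCard (q : ℕ) : ℕ := if q = 2 then 1 else 2

/-- the residue degree of a middle component over 'can' -/
def midDeg (q : ℕ) : ℕ := if q = 2 then 1 else (q - 1) / 2

@[simp] theorem midCard_two : midCard 2 = 1 := rfl

@[simp] theorem midDeg_two : midDeg 2 = 1 := rfl

@[simp] theorem midDeg_three : midDeg 3 = 1 := rfl

theorem midCard_of_ne_two {q : ℕ} (hq : q ≠ 2) : midCard q = 2 := if_neg hq

theorem midDeg_of_ne_two {q : ℕ} (hq : q ≠ 2) : midDeg q = (q - 1) / 2 := if_neg hq

theorem midDeg_pos {q : ℕ} (hq : q.Prime) : 0 < midDeg q := by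
  by_cases h2 : q = 2
  · subst h2
    exact Nat.one_pos
  · rw [midDeg_of_ne_two h2]
    obtain ⟨j, hj⟩ := hq.odd_of_ne_two h2
    have := hq.two_le
    omega

/-- `midDeg q * midCard q + 1 = q`: the shape `hd` of `BR3/GraphKillGen`. -/
theorem midDeg_mul_midCard {q : ℕ} (hq : q.Prime) : midDeg q * midCard q + 1 = q := by
  by_cases h2 : q = 2
  · subst h2
    rfl
  · rw [midDeg_of_ne_two h2, midCard_of_ne_two h2]
    obtain ⟨j, hj⟩ := hq.odd_of_ne_two h2
    omega

/-- **(C-IG-SQ), uniform in `q`.** For every prime `q` and every field `k` of characteristic `q`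
the `midDeg q`-th power of `θ j̃` is a rational function of `j̃`:
`(θ j̃)^(midDeg q) · T(j̃) = N(j̃)` with `T(j̃) ≠ 0 ≠ N(j̃)`. -/
theorem exists_poly_thetaL_pow_midDeg (q : ℕ) [hq : Fact q.Prime] (k : Type*) [Field k]
    [CharP k q] :
    ∃ T N : Polynomial k, Polynomial.aeval (jqModC k) T ≠ 0 ∧
      Polynomial.aeval (jqModC k) N ≠ 0 ∧
      thetaL k (jqModC k) ^ midDeg q * Polynomial.aeval (jqModC k) T =
        Polynomial.aeval (jqModC k) N := by
  have hsmall : thetaL k (jqModC k) = -jqModC k →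
      ∃ T N : Polynomial k, Polynomial.aeval (jqModC k) T ≠ 0 ∧
        Polynomial.aeval (jqModC k) N ≠ 0 ∧
        thetaL k (jqModC k) ^ 1 * Polynomial.aeval (jqModC k) T =
          Polynomial.aeval (jqModC k) N := by
    intro h
    refine ⟨1, -Polynomial.X, ?_, ?_, ?_⟩
    · rw [map_one]
      exact one_ne_zero
    · rw [map_neg, Polynomial.aeval_X]
      exact neg_ne_zero.mpr jqModC_ne_zero
    · rw [map_one, mul_one, pow_one, h, map_neg, Polynomial.aeval_X]
  by_cases h2 : q = 2
  · subst h2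
    exact hsmall thetaL_jqModC_of_char_two
  by_cases h3 : q = 3
  · subst h3
    exact hsmall thetaL_jqModC_of_char_three
  have hq5 : 5 ≤ q := by
    have h2' := hq.out.two_le
    rcases Nat.lt_or_ge q 5 with h | h
    · exfalso
      have h4 : q ≠ 4 := by
        rintro rfl
        exact absurd hq.out (by decide)
      omega
    · exact h
  obtain ⟨T, hT, h⟩ := exists_poly_thetaL_pow q hq5 k
  rw [midDeg_of_ne_two h2]
  obtain ⟨N, hN⟩ : ∃ N : Polynomial k, Polynomial.aeval (jqModC k) N =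
      (-1) ^ ((q - 1) / 2) * (jqModC k * (jqModC k - 1728)) ^ ((q - 1) / 2) := by
    refine ⟨Polynomial.C ((-1 : k) ^ ((q - 1) / 2)) *
      (Polynomial.X * (Polynomial.X - Polynomial.C (1728 : k))) ^ ((q - 1) / 2), ?_⟩
    simp only [map_mul, map_pow, map_sub, map_neg, map_one, Polynomial.aeval_X, map_ofNat]
  refine ⟨T, N, hT, ?_, ?_⟩
  · rw [hN, ← h]
    refine mul_ne_zero (pow_ne_zero _ ?_) hT
    intro h0
    rw [h0, zero_pow (Nat.pos_iff_ne_zero.mp (by omega : 0 < (q - 1) / 2)), zero_mul] at h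
    have hne : (-1 : LaurentSeries k) ^ ((q - 1) / 2) *
        (jqModC k * (jqModC k - 1728)) ^ ((q - 1) / 2) ≠ 0 :=
      mul_ne_zero (pow_ne_zero _ (neg_ne_zero.mpr one_ne_zero))
        (pow_ne_zero _ (mul_ne_zero jqModC_ne_zero jqModC_sub_ne_zero))
    exact hne h.symm
  · rw [hN, h]

end Fermat.Agent.BR3.IgSq
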